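import Mathlib
import Fermat.Agent.Lib.TwoChartVanish
import Fermat.Agent.S30.Model.ChartProv
import Fermat.Agent.S30.Model.ChartInf

/-!
# The two-chart algebra `Lib/TwoChartVanish` on the chart rings of a function `u`

`O` a discrete valuation ring with fraction field `E` of characteristic zero, `L / E` a field,
`u : L` transcendental over `E` with `L / E(u)` finite.  `C0 u`, `Cinf u` : the integral closures
of `O[u]` and `O[u⁻¹]` in `L`, as `O`-subalgebras of `L` (the chart rings of the landed Model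
theorem, `S30/Model`, `S37/Fn/ModelInst.ChartModel`).
-/

set_option autoImplicit false

namespace Fermat.Agent.S19.RRLite.ChartVanish

open Polynomial Fermat.Agent.Lib.TwoChartVanish Fermat.Agent.S30.Model

section Defs

variable (O : Type*) {L : Type*} [CommRing O] [Field L] [Algebra O L]

/-- The chart ring at `0`: the integral closure of `O[u]` in `L`, as an `O`-subalgebra. -/
def C0 (u : L) : Subalgebra O L :=
  (integralClosure (Algebra.adjoin O ({u} : Set L)) L).restrictScalars O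

/-- The chart ring at `∞`: the integral closure of `O[u⁻¹]` in `L`, as an `O`-subalgebra. -/
def Cinf (u : L) : Subalgebra O L :=
  (integralClosure (Algebra.adjoin O ({u⁻¹} : Set L)) L).restrictScalars O

variable {O}

theorem mem_C0 {u x : L} : x ∈ C0 O u ↔ IsIntegral (Algebra.adjoin O ({u} : Set L)) x := Iff.rfl

theorem mem_Cinf {u x : L} :
    x ∈ Cinf O u ↔ IsIntegral (Algebra.adjoin O ({u⁻¹} : Set L)) x := Iff.rfl

theorem self_mem_C0 (u : L) : u ∈ C0 O u :=
  CechP1.isIntegral_adjoin_of_mem (Algebra.subset_adjoin (Set.mem_singleton u))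

theorem inv_mem_Cinf (u : L) : u⁻¹ ∈ Cinf O u :=
  CechP1.isIntegral_adjoin_of_mem (Algebra.subset_adjoin (Set.mem_singleton u⁻¹))

/-- Overlap: `C0 ⊆ Cinf[u]`. -/
theorem hov (u : L) (hu0 : u ≠ 0) : ∀ b ∈ C0 O u, ∃ m : ℕ, u⁻¹ ^ m * b ∈ Cinf O u := by
  intro b hb
  obtain ⟨m, hm⟩ := ChartInf.exists_forall_ge_isIntegral_inv u hu0 b
    (ChartInf.isIntegral_overlap_of_zero u hb)
  exact ⟨m, hm m le_rfl⟩

/-- Overlap: `Cinf ⊆ C0[1/u]`. -/
theorem hov' (u : L) (hu0 : u ≠ 0) : ∀ c ∈ Cinf O u, ∃ m : ℕ, u ^ m * c ∈ C0 O u := by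
  intro c hc
  obtain ⟨m, hm⟩ := ChartInf.exists_forall_ge_isIntegral u hu0 c
    (ChartInf.isIntegral_overlap_of_inf u hc)
  exact ⟨m, hm m le_rfl⟩

/-- Finite generation of `C0` over `O[u]`, in the polynomial form of `Lib/TwoChartVanish`. -/
theorem hfg (u : L)
    [Module.Finite (Algebra.adjoin O ({u} : Set L))
      (integralClosure (Algebra.adjoin O ({u} : Set L)) L)] :
    ∃ s : Finset L, (↑s : Set L) ⊆ C0 O u ∧
      ∀ b ∈ C0 O u, ∃ c : L → O[X], b = ∑ g ∈ s, aeval u (c g) * g := by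
  obtain ⟨s, hs, h⟩ := CechP1.hfin_of_finite (O := O) u
  exact ⟨s, fun g hg => hs g (Finset.mem_coe.mp hg), fun b hb => h b hb⟩

/-- Finite generation of `Cinf` over `O[u⁻¹]`. -/
theorem hfg' (u : L)
    [Module.Finite (Algebra.adjoin O ({u⁻¹} : Set L))
      (integralClosure (Algebra.adjoin O ({u⁻¹} : Set L)) L)] :
    ∃ s : Finset L, (↑s : Set L) ⊆ Cinf O u ∧
      ∀ b ∈ Cinf O u, ∃ c : L → O[X], b = ∑ g ∈ s, aeval u⁻¹ (c g) * g := by
  obtain ⟨s, hs, h⟩ := CechP1.hfin_of_finite (O := O) u⁻¹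
  exact ⟨s, fun g hg => hs g (Finset.mem_coe.mp hg), fun b hb => h b hb⟩

/-- The constants: `C0 ∩ Cinf` is the integral closure of `O` in `L`. -/
theorem hconst (u : L) (hu0 : u ≠ 0)
    (hOL : ∀ x : L, IsIntegral O x → ∃ a : O, algebraMap O L a = x) :
    ∀ x ∈ C0 O u, x ∈ Cinf O u → ∃ a : O, algebraMap O L a = x :=
  fun x h0 h1 => hOL x (CechP1.isIntegral_of_two_charts u hu0 x h0 h1)

/-- Every element of the overlap `C0[1/u]` lands in `Cinf` after multiplication by a power of
`u⁻¹`. -/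
theorem exists_inv_pow_mul_mem_Cinf (u : L) (hu0 : u ≠ 0) {x : L}
    (hx : x ∈ Ov u (C0 O u) (self_mem_C0 u)) : ∃ j : ℕ, u⁻¹ ^ j * x ∈ Cinf O u := by
  obtain ⟨m, hm⟩ := hx
  obtain ⟨k, hk⟩ := hov u hu0 _ hm
  refine ⟨k, ?_⟩
  have h3 : u⁻¹ ^ k * x = u⁻¹ ^ m * (u⁻¹ ^ k * (u ^ m * x)) := by
    rw [inv_pow, inv_pow]
    field_simp
  rw [h3]
  exact (Cinf O u).mul_mem ((Cinf O u).pow_mem (inv_mem_Cinf u) m) hk

end Defs

section Model

variable {O E L : Type*} [CommRing O] [IsDomain O] [IsDiscreteValuationRing O]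
  [Field E] [Algebra O E] [IsFractionRing O E]
  [Field L] [Algebra E L] [Algebra O L] [IsScalarTower O E L]

/-- **`π`-saturation of the chart at `0`** in the overlap. -/
theorem hsat0 (π : O) (hπ : Irreducible π) (u : L) (hu : Transcendental E u) :
    ∀ x ∈ Ov u (C0 O u) (self_mem_C0 u), π • x ∈ C0 O u → x ∈ C0 O u := by
  intro x hx hπx
  have hπL : algebraMap O L π ≠ 0 := fun h0 =>
    hπ.ne_zero (ChartProv.algebraMap_injective_base O E L (h0.trans (map_zero _).symm))
  obtain ⟨m, hm⟩ := hx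
  have key := GlueChart.isIntegral_div_of_pow_mul (S := Algebra.adjoin O ({u} : Set L)) u
    (algebraMap O L π) (self_mem_C0 (O := O) u)
    (fun y hy h => ChartProv.chart_nzd (E := E) π hπ u hu y hy h) m (π • x) hπx (by
      have : u ^ m * π • x / algebraMap O L π = u ^ m * x := by
        rw [Algebra.smul_def]
        field_simp
      rw [this]
      exact hm)
  have : π • x / algebraMap O L π = x := by
    rw [Algebra.smul_def]
    field_simp
  rw [this] at key
  exact key

/-- **`π`-saturation of the chart at `∞`** in the overlap. -/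
theorem hsatInf (π : O) (hπ : Irreducible π) (u : L) (hu : Transcendental E u) :
    ∀ x ∈ Ov u (C0 O u) (self_mem_C0 u), π • x ∈ Cinf O u → x ∈ Cinf O u := by
  intro x hx hπx
  have hu0 : u ≠ 0 := fun h => hu (h ▸ isAlgebraic_zero)
  have hu' : Transcendental E u⁻¹ := fun h => hu (by simpa using h.inv)
  have hπL : algebraMap O L π ≠ 0 := fun h0 =>
    hπ.ne_zero (ChartProv.algebraMap_injective_base O E L (h0.trans (map_zero _).symm))
  obtain ⟨j, hj⟩ := exists_inv_pow_mul_mem_Cinf u hu0 hx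
  have key := GlueChart.isIntegral_div_of_pow_mul (S := Algebra.adjoin O ({u⁻¹} : Set L)) u⁻¹
    (algebraMap O L π) (inv_mem_Cinf (O := O) u)
    (fun y hy h => ChartProv.chart_nzd (E := E) π hπ u⁻¹ hu' y hy h) j (π • x) hπx (by
      have : u⁻¹ ^ j * π • x / algebraMap O L π = u⁻¹ ^ j * x := by
        rw [Algebra.smul_def]
        field_simp
      rw [this]
      exact hj)
  have : π • x / algebraMap O L π = x := by
    rw [Algebra.smul_def]
    field_simp
  rw [this] at key
  exact key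

end Model

section Assembly

variable {O E L : Type*} [CommRing O] [IsDomain O] [IsDiscreteValuationRing O]
  [Field E] [CharZero E] [Algebra O E] [IsFractionRing O E]
  [Field L] [Algebra E L] [Algebra O L] [IsScalarTower O E L]

omit [CharZero E] in
theorem finiteDimensional_inv (u : L) [FiniteDimensional (IntermediateField.adjoin E {u}) L] :
    FiniteDimensional (IntermediateField.adjoin E {u⁻¹}) L := by
  have hK : IntermediateField.adjoin E {u⁻¹} = IntermediateField.adjoin E {u} := by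
    apply le_antisymm
    · rw [IntermediateField.adjoin_simple_le_iff]
      exact inv_mem (IntermediateField.mem_adjoin_simple_self E u)
    · rw [IntermediateField.adjoin_simple_le_iff]
      have := inv_mem (IntermediateField.mem_adjoin_simple_self E u⁻¹)
      simpa using this
  rw [hK]
  infer_instance

/-- **Exact vanishing on the chart rings**: `C0[1/u] = C0 + u ^ n * Cinf` for all `n ≥ n₁`. -/
theorem chart_vanish (u : L) (hu : Transcendental E u)
    [FiniteDimensional (IntermediateField.adjoin E {u}) L] :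
    ∃ n₁ : ℕ, ∀ n, n₁ ≤ n →
      Ov u (C0 O u) (self_mem_C0 u) ≤ Mn u (C0 O u) (Cinf O u) n := by
  have hu0 : u ≠ 0 := fun h => hu (h ▸ isAlgebraic_zero)
  have := ChartProv.chart_finite (O := O) (E := E) u hu
  exact exists_forall_Ov_le_Mn hu0 (self_mem_C0 u) (inv_mem_Cinf u) (hfg u) (hov u hu0)

/-- The lattices `V_n = C0 ∩ u ^ n * Cinf` are finite free `O`-modules. -/
theorem chart_finite_free (u : L) (hu : Transcendental E u)
    [FiniteDimensional (IntermediateField.adjoin E {u}) L]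
    (hOL : ∀ x : L, IsIntegral O x → ∃ a : O, algebraMap O L a = x) (n : ℕ) :
    Module.Finite O ↥(Vn u (C0 O u) (Cinf O u) n) ∧
      Module.Free O ↥(Vn u (C0 O u) (Cinf O u) n) := by
  have hu0 : u ≠ 0 := fun h => hu (h ▸ isAlgebraic_zero)
  have hu' : Transcendental E u⁻¹ := fun h => hu (by simpa using h.inv)
  have := finiteDimensional_inv (E := E) u
  have := ChartProv.chart_finite (O := O) (E := E) u⁻¹ hu'
  have hfin : Module.Finite O ↥(Vn u (C0 O u) (Cinf O u) n) :=
    finite_Vn hu0 (inv_mem_Cinf u) (hfg' u) (finite_Vn_zero (hconst u hu0 hOL)) n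
  have hinj : Function.Injective (algebraMap O L) := ChartProv.algebraMap_injective_base O E L
  have htf : Module.IsTorsionFree O L := by
    rw [Module.isTorsionFree_iff_smul_eq_zero]
    intro r x h
    rw [Algebra.smul_def, mul_eq_zero] at h
    rcases h with h | h
    · exact Or.inl (hinj (h.trans (map_zero _).symm))
    · exact Or.inr h
  have htf' : Module.IsTorsionFree O ↥(Vn u (C0 O u) (Cinf O u) n) := by
    rw [Module.isTorsionFree_iff_smul_eq_zero]
    intro r x h
    have h' : r • (x : L) = 0 := by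
      rw [← Submodule.coe_smul, h, Submodule.coe_zero]
    rcases (Module.isTorsionFree_iff_smul_eq_zero.mp htf) r x h' with h1 | h1
    · exact Or.inl h1
    · exact Or.inr (Subtype.ext h1)
  exact ⟨hfin, inferInstance⟩

/-- **Hilbert function of the chart lattices**: for `n ≥ n₁`,
`rank V_(n₁+k) = rank V_(n₁) + k * rank (Cinf / u⁻¹ Cinf)`. -/
theorem chart_finrank (u : L) (hu : Transcendental E u)
    [FiniteDimensional (IntermediateField.adjoin E {u}) L]
    (hOL : ∀ x : L, IsIntegral O x → ∃ a : O, algebraMap O L a = x) :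
    ∃ n₁ : ℕ, (∀ n, n₁ ≤ n → Ov u (C0 O u) (self_mem_C0 u) ≤ Mn u (C0 O u) (Cinf O u) n) ∧
      ∀ k : ℕ, Module.finrank O ↥(Vn u (C0 O u) (Cinf O u) (n₁ + k)) =
        Module.finrank O ↥(Vn u (C0 O u) (Cinf O u) n₁) +
          k * Module.finrank O (Qinf u (Cinf O u)) := by
  have hu0 : u ≠ 0 := fun h => hu (h ▸ isAlgebraic_zero)
  have hu' : Transcendental E u⁻¹ := fun h => hu (by simpa using h.inv)
  have := finiteDimensional_inv (E := E) u
  have := ChartProv.chart_finite (O := O) (E := E) u⁻¹ hu'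
  obtain ⟨n₁, hn₁⟩ := chart_vanish (O := O) (E := E) u hu
  exact ⟨n₁, hn₁, fun k => finrank_Vn_eq hu0 (self_mem_C0 u) (inv_mem_Cinf u) (hfg' u)
    (hov' u hu0) (finite_Vn_zero (hconst u hu0 hOL)) hn₁ k⟩

omit [CharZero E] in
/-- **`V_n / π → (C0/π) ∩ u ^ n (Cinf/π)` is bijective** for `n ≥ n₁`, in elementwise form:
(injective) `π x ∈ V_n`, `x` in the overlap ⟹ `x ∈ V_n`;
(onto) `b ∈ C0`, `c ∈ Cinf`, `b ≡ u ^ n c` modulo `π` on the overlap ⟹ some `v ∈ V_n` is
congruent to `b` modulo `π C0`. -/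
theorem chart_reduction (π : O) (hπ : Irreducible π) (u : L) (hu : Transcendental E u) {n : ℕ}
    (hn : Ov u (C0 O u) (self_mem_C0 u) ≤ Mn u (C0 O u) (Cinf O u) n) :
    (∀ x ∈ Ov u (C0 O u) (self_mem_C0 u), π • x ∈ Vn u (C0 O u) (Cinf O u) n →
      x ∈ Vn u (C0 O u) (Cinf O u) n) ∧
    (∀ b ∈ C0 O u, ∀ c ∈ Cinf O u, ∀ x ∈ Ov u (C0 O u) (self_mem_C0 u),
      b - u ^ n * c = π • x → ∃ v ∈ Vn u (C0 O u) (Cinf O u) n, ∃ b' ∈ C0 O u, v = b - π • b') := by
  have hu0 : u ≠ 0 := fun h => hu (h ▸ isAlgebraic_zero)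
  exact ⟨fun x hx h => mem_Vn_of_smul_mem hu0 (self_mem_C0 u) (hsat0 (E := E) π hπ u hu)
      (hsatInf (E := E) π hπ u hu) hx h,
    fun b hb c hc x hx h => exists_mem_Vn_lift (self_mem_C0 u) hn hb hc hx h⟩

end Assembly

end Fermat.Agent.S19.RRLite.ChartVanish
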